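/-
Formal power series in finitely many variables over an infinite field form a factorial ring, by
Weierstrass preparation.
-/
import Mathlib

set_option autoImplicit false
set_option linter.style.haveILetI false

noncomputable section

namespace Fermat.Agent.AbVar

open MvPowerSeries

universe u

variable {k : Type u} [Field k] {n : ℕ}

theorem mem_span_X_image_iff (s : Finset (Fin n)) (f : MvPowerSeries (Fin n) k) :
    f ∈ Ideal.span ((X : Fin n → MvPowerSeries (Fin n) k) '' (s : Set (Fin n))) ↔
      ∀ m : Fin n →₀ ℕ, (∀ j ∈ s, m j = 0) → coeff m f = 0 := by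
  classical
  induction s using Finset.induction generalizing f with
  | empty =>
    simp only [Finset.coe_empty, Set.image_empty, Ideal.span_empty, Ideal.mem_bot,
      Finset.notMem_empty, IsEmpty.forall_iff, implies_true, true_implies]
    exact ⟨fun h m => by simp [h], fun h => ext (by simpa using h)⟩
  | @insert j s hj ih =>
    rw [Finset.coe_insert, Set.image_insert_eq, Ideal.mem_span_insert']
    constructor
    · rintro ⟨a, ha⟩ m hm
      have h1 := (ih _).1 ha m (fun i hi => hm i (Finset.mem_insert_of_mem hi))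
      have h2 : coeff m (a * X j) = 0 :=
        X_dvd_iff.1 (dvd_mul_left (X j) a) m (hm j (Finset.mem_insert_self _ _))
      rw [map_add, h2, add_zero] at h1
      exact h1
    · intro h
      let g : MvPowerSeries (Fin n) k := fun m => if m j = 0 then 0 else - coeff m f
      have hg : (X j : MvPowerSeries (Fin n) k) ∣ g := X_dvd_iff.2 (fun m hm => by
        show g m = 0
        simp [g, hm])
      obtain ⟨a, ha⟩ := hg
      refine ⟨a, (ih _).2 fun m hm => ?_⟩
      rw [mul_comm, ← ha, map_add, coeff_apply g]
      by_cases hmj : m j = 0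
      · simp only [g, hmj, if_true, add_zero]
        exact h m ((Finset.forall_mem_insert _ _ _).2 ⟨hmj, hm⟩)
      · simp [g, hmj]

theorem mem_span_X_iff {f : MvPowerSeries (Fin n) k} :
    f ∈ Ideal.span (Set.range (X : Fin n → MvPowerSeries (Fin n) k)) ↔ constantCoeff f = 0 := by
  rw [← Set.image_univ, ← Finset.coe_univ, mem_span_X_image_iff]
  refine ⟨fun h => ?_, fun h m hm => ?_⟩
  · rw [← coeff_zero_eq_constantCoeff_apply]
    exact h 0 fun j _ => rfl
  · rwa [show m = 0 from Finsupp.ext fun j => hm j (Finset.mem_univ j),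
      coeff_zero_eq_constantCoeff_apply]

theorem maximalIdeal_mvPowerSeries :
    IsLocalRing.maximalIdeal (MvPowerSeries (Fin n) k) =
      Ideal.span (Set.range (X : Fin n → MvPowerSeries (Fin n) k)) := by
  ext f
  rw [mem_span_X_iff, IsLocalRing.mem_maximalIdeal, mem_nonunits_iff, isUnit_iff_constantCoeff,
    isUnit_iff_ne_zero, not_not]

instance isAdicComplete_maximalIdeal :
    IsAdicComplete (IsLocalRing.maximalIdeal (MvPowerSeries (Fin n) k))
      (MvPowerSeries (Fin n) k) := by
  rw [maximalIdeal_mvPowerSeries]; infer_instance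

/-- The homogeneous part of degree `d` as a polynomial. -/
def homPart (f : MvPowerSeries (Fin n) k) (d : ℕ) : MvPolynomial (Fin n) k :=
  ∑ e ∈ Finset.finsuppAntidiag Finset.univ d, MvPolynomial.monomial e (coeff e f)

theorem mem_finsuppAntidiag_univ {d : ℕ} {e : Fin n →₀ ℕ} :
    e ∈ Finset.finsuppAntidiag (Finset.univ : Finset (Fin n)) d ↔ ∑ i, e i = d := by
  rw [Finset.mem_finsuppAntidiag]
  exact and_iff_left (Finset.subset_univ _)

theorem coeff_homPart (f : MvPowerSeries (Fin n) k) {d : ℕ} {e : Fin n →₀ ℕ}
    (he : ∑ i, e i = d) : (homPart f d).coeff e = coeff e f := by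
  classical
  rw [homPart, MvPolynomial.coeff_sum,
    Finset.sum_eq_single_of_mem e (mem_finsuppAntidiag_univ.mpr he) fun b _ hb => by
      rw [MvPolynomial.coeff_monomial, if_neg hb], MvPolynomial.coeff_monomial, if_pos rfl]

/-- The coefficient of a power series restricted to a line. -/
theorem coeff_subst_line (c : Fin n → k) (f : MvPowerSeries (Fin n) k) (d : ℕ) :
    coeff (Finsupp.single () d) (subst (fun i => c i • (X () : MvPowerSeries Unit k)) f) =
      MvPolynomial.eval c (homPart f d) := by
  classical
  have ha : HasSubst (fun i => c i • (X () : MvPowerSeries Unit k)) :=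
    hasSubst_of_constantCoeff_zero fun i => by simp [smul_eq_C_mul]
  rw [coeff_subst ha, homPart, map_sum]
  have hco : ∀ e : Fin n →₀ ℕ, coeff (Finsupp.single () d)
      (e.prod fun i j => (c i • (X () : MvPowerSeries Unit k)) ^ j) =
      if ∑ i, e i = d then e.prod (fun i j => c i ^ j) else 0 := fun e => by
    have h1 : (e.prod fun i j => (c i • (X () : MvPowerSeries Unit k)) ^ j) =
        C (e.prod fun i j => c i ^ j) * X () ^ (∑ i, e i) := by
      rw [Finsupp.prod_fintype _ _ fun i => pow_zero _, Finsupp.prod_fintype _ _ fun i => pow_zero _,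
        map_prod, ← Finset.prod_pow_eq_pow_sum, ← Finset.prod_mul_distrib]
      simp [smul_eq_C_mul, mul_pow]
    rw [h1, coeff_C_mul, X_pow_eq, coeff_monomial]
    split_ifs with h2 h3 h3
    · rw [mul_one]
    · exact absurd (Finsupp.single_injective () h2).symm h3
    · exact absurd (by rw [h3]) h2
    · rw [mul_zero]
  rw [finsum_eq_sum_of_support_subset _ (s := Finset.finsuppAntidiag Finset.univ d)]
  · refine Finset.sum_congr rfl fun e he => ?_
    rw [hco, if_pos (mem_finsuppAntidiag_univ.mp he), MvPolynomial.eval_monomial, smul_eq_mul]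
  · intro e he
    rw [Function.mem_support, hco] at he
    rw [Finset.mem_coe, mem_finsuppAntidiag_univ]
    by_contra hne
    exact he (by rw [if_neg hne, smul_zero])

/-- After a linear substitution a nonzero series is general in the first variable. -/
theorem exists_equiv_general [Infinite k] (f : MvPowerSeries (Fin (n + 1)) k) (hf : f ≠ 0) :
    ∃ (σ : MvPowerSeries (Fin (n + 1)) k ≃+* MvPowerSeries (Fin (n + 1)) k) (d : ℕ),
      coeff (Finsupp.single 0 d) (σ f) ≠ 0 := by
  classical
  obtain ⟨e, he⟩ : ∃ e, coeff e f ≠ 0 := by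
    by_contra h
    push Not at h
    exact hf (ext fun e => by simpa using h e)
  set d := ∑ i, e i
  have hP : homPart f d * MvPolynomial.X 0 ≠ 0 :=
    mul_ne_zero (fun h => he (by rw [← coeff_homPart f rfl, h, MvPolynomial.coeff_zero]))
      (MvPolynomial.X_ne_zero 0)
  obtain ⟨c, hc⟩ : ∃ c, MvPolynomial.eval c (homPart f d * MvPolynomial.X 0) ≠ 0 := by
    by_contra h
    push Not at h
    exact hP (MvPolynomial.funext fun x => by rw [h x, map_zero])
  rw [map_mul, MvPolynomial.eval_X, mul_ne_zero_iff] at hc
  let a : Fin (n + 1) → MvPowerSeries (Fin (n + 1)) k :=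
    Fin.cases (c 0 • X 0) fun i => X i.succ + c i.succ • X 0
  let b : Fin (n + 1) → MvPowerSeries (Fin (n + 1)) k :=
    Fin.cases ((c 0)⁻¹ • X 0) fun i => X i.succ - (c i.succ * (c 0)⁻¹) • X 0
  have ha : HasSubst a := hasSubst_of_constantCoeff_zero fun s => by
    cases s using Fin.cases <;> simp [a, smul_eq_C_mul]
  have hb : HasSubst b := hasSubst_of_constantCoeff_zero fun s => by
    cases s using Fin.cases <;> simp [b, smul_eq_C_mul]
  have hba : (fun s => subst b (a s)) = X := funext fun s => by
    cases s using Fin.cases with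
    | zero =>
      simp [a, b, subst_smul hb, subst_X hb, smul_smul, mul_inv_cancel₀ hc.2]
    | succ i =>
      simp [a, b, subst_add hb, subst_smul hb, subst_X hb, smul_smul]
  have hab : (fun s => subst a (b s)) = X := funext fun s => by
    cases s using Fin.cases with
    | zero =>
      simp [a, b, subst_smul ha, subst_X ha, smul_smul, inv_mul_cancel₀ hc.2]
    | succ i =>
      simp [a, b, subst_sub ha, subst_smul ha, subst_X ha, smul_smul, hc.2]
  refine ⟨RingEquiv.ofRingHom (substAlgHom ha).toRingHom (substAlgHom hb).toRingHom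
      (RingHom.ext fun g => ?_) (RingHom.ext fun g => ?_), d, ?_⟩
  · show substAlgHom ha (substAlgHom hb g) = g
    rw [coe_substAlgHom, coe_substAlgHom, subst_comp_subst_apply hb ha, hab, subst_self]
    rfl
  · show substAlgHom hb (substAlgHom ha g) = g
    rw [coe_substAlgHom, coe_substAlgHom, subst_comp_subst_apply ha hb, hba, subst_self]
    rfl
  show coeff (Finsupp.single 0 d) (substAlgHom ha f) ≠ 0
  rw [coe_substAlgHom]
  set l : Fin (n + 1) → k := fun i => if i = 0 then 1 else 0
  have hl : HasSubst (fun i => l i • (X () : MvPowerSeries Unit k)) :=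
    hasSubst_of_constantCoeff_zero fun i => by simp [smul_eq_C_mul]
  have key : subst (fun i => l i • (X () : MvPowerSeries Unit k)) (subst a f) =
      subst (fun i => c i • (X () : MvPowerSeries Unit k)) f := by
    rw [subst_comp_subst_apply ha hl]
    congr 1
    funext s
    cases s using Fin.cases with
    | zero =>
      show subst _ (c 0 • X 0) = _
      rw [subst_smul hl, subst_X hl]
      simp [l]
    | succ i =>
      show subst _ (X i.succ + c i.succ • X 0) = _
      rw [subst_add hl, subst_smul hl, subst_X hl, subst_X hl]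
      simp [l, Fin.succ_ne_zero]
  have h1 := congrArg (coeff (Finsupp.single () d)) key
  rw [coeff_subst_line, coeff_subst_line] at h1
  intro h0
  refine hc.1 (h1.symm.trans ?_)
  rw [homPart, map_sum]
  refine Finset.sum_eq_zero fun e' he' => ?_
  rw [MvPolynomial.eval_monomial]
  by_cases h : ∀ i, i ≠ 0 → e' i = 0
  · have he'' : e' = Finsupp.single 0 d := Finsupp.ext fun i => by
      rcases eq_or_ne i 0 with rfl | hi
      · rw [Finsupp.single_eq_same, ← mem_finsuppAntidiag_univ.mp he']
        exact (Finset.sum_eq_single_of_mem 0 (Finset.mem_univ _) fun j _ hj => h j hj).symm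
      · rw [Finsupp.single_eq_of_ne hi, h i hi]
    rw [he'', h0, zero_mul]
  · push Not at h
    obtain ⟨i, hi, hei⟩ := h
    rw [Finsupp.prod_fintype _ _ fun i => pow_zero _,
      Finset.prod_eq_zero (Finset.mem_univ i) (by simp [l, hi, hei]), mul_zero]

/-- A monic factor of a distinguished polynomial is distinguished. -/
theorem isDistinguishedAt_of_dvd {A : Type*} [CommRing A] [IsLocalRing A] {P Q : Polynomial A}
    (hP : P.IsDistinguishedAt (IsLocalRing.maximalIdeal A)) (hQ : Q.Monic) (h : Q ∣ P) :
    Q.IsDistinguishedAt (IsLocalRing.maximalIdeal A) := by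
  have h1 : P.map (IsLocalRing.residue A) = Polynomial.X ^ P.natDegree := by
    ext i
    rcases lt_trichotomy i P.natDegree with hi | rfl | hi
    · rw [Polynomial.coeff_map, Polynomial.coeff_X_pow, if_neg hi.ne,
        IsLocalRing.residue_eq_zero_iff]
      exact hP.mem hi
    · rw [Polynomial.coeff_map, Polynomial.coeff_X_pow, if_pos rfl, hP.monic.coeff_natDegree,
        map_one]
    · rw [Polynomial.coeff_map, Polynomial.coeff_X_pow, if_neg hi.ne',
        Polynomial.coeff_eq_zero_of_natDegree_lt hi, map_zero]
  obtain ⟨i, -, hi⟩ := (dvd_prime_pow Polynomial.prime_X P.natDegree).mp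
    (h1 ▸ Polynomial.map_dvd (IsLocalRing.residue A) h)
  have h2 : Q.map (IsLocalRing.residue A) = Polynomial.X ^ i :=
    Polynomial.eq_of_monic_of_associated (hQ.map _) (Polynomial.monic_X_pow i) hi
  have hid : i = Q.natDegree := by
    rw [← hQ.natDegree_map (IsLocalRing.residue A), h2, Polynomial.natDegree_X_pow]
  refine ⟨⟨fun {j} hj => ?_⟩, hQ⟩
  have h3 := congrArg (fun p => Polynomial.coeff p j) h2
  simp only [Polynomial.coeff_map, Polynomial.coeff_X_pow] at h3
  rwa [if_neg (by omega), IsLocalRing.residue_eq_zero_iff] at h3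

open PowerSeries in
/-- A prime ideal of series over a complete factorial ring containing a series general in the
variable contains a prime element. -/
theorem exists_prime_mem {A : Type*} [CommRing A] [IsDomain A] [IsLocalRing A]
    [IsAdicComplete (IsLocalRing.maximalIdeal A) A] [UniqueFactorizationMonoid A]
    (p : Ideal (PowerSeries A)) [hp : p.IsPrime] {g : PowerSeries A} (hg : g ∈ p)
    (hg' : g.map (IsLocalRing.residue A) ≠ 0) : ∃ x ∈ p, Prime x := by
  classical
  obtain ⟨P, h, H⟩ := exists_isWeierstrassFactorization hg'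
  have hex : ∃ N, ∃ Q : Polynomial A, Q.IsDistinguishedAt (IsLocalRing.maximalIdeal A) ∧
      (Q : PowerSeries A) ∈ p ∧ Q.natDegree = N := by
    refine ⟨_, P, H.isDistinguishedAt, ?_, rfl⟩
    rw [H.eq_mul] at hg
    exact (hp.mem_or_mem hg).resolve_right fun hh =>
      hp.ne_top (Ideal.eq_top_of_isUnit_mem _ hh H.isUnit)
  obtain ⟨Q, hQ, hQp, hQdeg⟩ := Nat.find_spec hex
  have hQ1 : Q ≠ 1 := fun e => hp.ne_top ((Ideal.eq_top_iff_one p).mpr (by simpa [e] using hQp))
  have hirr : Irreducible Q := by
    refine (Polynomial.Monic.irreducible_iff_natDegree hQ.monic).mpr ⟨hQ1, fun f g hf hg hfg => ?_⟩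
    have hd : f.natDegree + g.natDegree = Q.natDegree := by rw [← hfg, hf.natDegree_mul hg]
    rcases hp.mem_or_mem (show (f : PowerSeries A) * g ∈ p by
      rw [← Polynomial.coe_mul, hfg]; exact hQp) with hm | hm
    · have := Nat.find_min' hex
        ⟨f, isDistinguishedAt_of_dvd hQ hf ⟨g, hfg.symm⟩, hm, rfl⟩
      exact Or.inr (by omega)
    · have := Nat.find_min' hex
        ⟨g, isDistinguishedAt_of_dvd hQ hg ⟨f, by rw [← hfg, mul_comm]⟩, hm, rfl⟩
      exact Or.inl (by omega)
  have hQ0 : (Q : PowerSeries A) ≠ 0 := by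
    exact_mod_cast hQ.monic.ne_zero
  refine ⟨Q, hQp, (Ideal.span_singleton_prime hQ0).mp ?_⟩
  rw [← Ideal.Quotient.isDomain_iff_prime]
  haveI : (Ideal.span {Q}).IsPrime :=
    (Ideal.span_singleton_prime hQ.monic.ne_zero).mpr hirr.prime
  exact MulEquiv.isDomain (Polynomial A ⧸ Ideal.span {Q})
    hQ.algEquivQuotient.toRingEquiv.symm.toMulEquiv

theorem uniqueFactorizationMonoid_mvPowerSeries' (k : Type u) [Field k] [Infinite k] (n : ℕ) :
    UniqueFactorizationMonoid (MvPowerSeries (Fin n) k) := by
  haveI : ∀ n, IsDomain (MvPowerSeries (Fin n) k) := fun n => NoZeroDivisors.to_isDomain _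
  induction n with
  | zero =>
    rw [UniqueFactorizationMonoid.iff_exists_prime_mem_of_isPrime]
    intro I hI hp
    obtain ⟨f, hf, hf0⟩ := Submodule.exists_mem_ne_zero_of_ne_bot hI
    refine absurd (Ideal.eq_top_of_isUnit_mem _ hf ?_) hp.ne_top
    rw [isUnit_iff_constantCoeff, isUnit_iff_ne_zero]
    intro h
    refine hf0 (ext fun e => ?_)
    rw [Subsingleton.elim e 0, coeff_zero_eq_constantCoeff_apply, h, map_zero]
  | succ n ih =>
    haveI := ih
    rw [UniqueFactorizationMonoid.iff_exists_prime_mem_of_isPrime]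
    intro I hI hp
    obtain ⟨f, hf, hf0⟩ := Submodule.exists_mem_ne_zero_of_ne_bot hI
    obtain ⟨σ, d, hd⟩ := exists_equiv_general f hf0
    let e : MvPowerSeries (Fin (n + 1)) k ≃+* PowerSeries (MvPowerSeries (Fin n) k) :=
      σ.trans (finSuccEquiv k n).toRingEquiv
    haveI : (I.comap e.symm).IsPrime := Ideal.comap_isPrime _ _
    have hmem : e f ∈ I.comap e.symm := by
      rw [Ideal.mem_comap, RingEquiv.symm_apply_apply]; exact hf
    have hgen : (e f).map (IsLocalRing.residue (MvPowerSeries (Fin n) k)) ≠ 0 := by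
      intro h0
      have h1 := congrArg (PowerSeries.coeff d) h0
      rw [PowerSeries.coeff_map, map_zero, IsLocalRing.residue_eq_zero_iff,
        maximalIdeal_mvPowerSeries, mem_span_X_iff] at h1
      refine hd ?_
      rw [← coeff_zero_eq_constantCoeff_apply] at h1
      have h2 : coeff 0 (PowerSeries.coeff d (finSuccEquiv k n (σ f))) =
          coeff ((0 : Fin n →₀ ℕ).cons d) (σ f) := coeff_coeff_finSuccEquiv (σ f)
      rw [show ((0 : Fin n →₀ ℕ).cons d) = Finsupp.single 0 d by
        ext i; cases i using Fin.cases <;> simp] at h2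
      exact h2.symm.trans h1
    obtain ⟨x, hx, hxp⟩ := exists_prime_mem _ hmem hgen
    exact ⟨e.symm x, hx, (MulEquiv.prime_iff e.symm.toMulEquiv).mpr hxp⟩

end Fermat.Agent.AbVar
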