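/-
A smooth local ring at a closed point embeds in power series with the same truncations; descent of
factoriality along such an embedding.
-/
import Fermat.Agent.AbVar.LocalAlgebra.PowerSeries

set_option autoImplicit false
set_option linter.style.haveILetI false
set_option linter.unusedSectionVars false

noncomputable section

namespace Fermat.Agent.AbVar

universe u

section Descent

variable {A R : Type*} [CommRing A] [IsNoetherianRing A] [IsLocalRing A] [CommRing R]
  [IsNoetherianRing R] [IsLocalRing R]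

/-- An element in every thickening of an ideal lies in it. -/
theorem mem_of_forall_mem_sup_pow (I : Ideal A) {a : A}
    (h : ∀ j : ℕ, a ∈ I ⊔ IsLocalRing.maximalIdeal A ^ j) : a ∈ I := by
  rcases eq_or_ne I ⊤ with rfl | hI
  · exact Submodule.mem_top
  haveI : Nontrivial (A ⧸ I) := Ideal.Quotient.nontrivial_iff.mpr hI
  haveI : IsLocalRing (A ⧸ I) :=
    IsLocalRing.of_surjective' (Ideal.Quotient.mk I) Ideal.Quotient.mk_surjective
  have h0 : Ideal.Quotient.mk I a ∈
      ⨅ j : ℕ, (IsLocalRing.maximalIdeal A).map (Ideal.Quotient.mk I) ^ j := by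
    refine Submodule.mem_iInf _ |>.mpr fun j => ?_
    have h1 := Ideal.mem_map_of_mem (Ideal.Quotient.mk I) (h j)
    rwa [Ideal.map_sup, Ideal.map_quotient_self, bot_sup_eq, Ideal.map_pow] at h1
  rw [Ideal.iInf_pow_eq_bot_of_isLocalRing, Submodule.mem_bot,
    Ideal.Quotient.eq_zero_iff_mem] at h0
  · exact h0
  · intro htop
    have h2 := congrArg (Ideal.comap (Ideal.Quotient.mk I)) htop
    rw [Ideal.comap_map_of_surjective _ Ideal.Quotient.mk_surjective, Ideal.comap_top,
      ← RingHom.ker_eq_comap_bot, Ideal.mk_ker,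
      sup_eq_left.mpr (IsLocalRing.le_maximalIdeal hI)] at h2
    exact (IsLocalRing.maximalIdeal.isMaximal A).ne_top h2

/-- A homomorphism with the same truncations. -/
structure SameTrunc (φ : A →+* R) : Prop where
  map_max : ∀ a ∈ IsLocalRing.maximalIdeal A, φ a ∈ IsLocalRing.maximalIdeal R
  reflect : ∀ (j : ℕ) (a : A), φ a ∈ IsLocalRing.maximalIdeal R ^ j →
    a ∈ IsLocalRing.maximalIdeal A ^ j
  approx : ∀ (j : ℕ) (r : R), ∃ a : A, r - φ a ∈ IsLocalRing.maximalIdeal R ^ j

variable {φ : A →+* R} (h : SameTrunc φ)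
include h

theorem SameTrunc.map_pow {j : ℕ} {a : A} (ha : a ∈ IsLocalRing.maximalIdeal A ^ j) :
    φ a ∈ IsLocalRing.maximalIdeal R ^ j := by
  have h1 : (IsLocalRing.maximalIdeal A).map φ ≤ IsLocalRing.maximalIdeal R :=
    Ideal.map_le_iff_le_comap.mpr h.map_max
  have h2 := Ideal.mem_map_of_mem φ ha
  rw [Ideal.map_pow] at h2
  exact Ideal.pow_right_mono h1 j h2

theorem SameTrunc.injective : Function.Injective φ := by
  refine (injective_iff_map_eq_zero φ).mpr fun a ha => ?_
  refine (Submodule.mem_bot A).mp (mem_of_forall_mem_sup_pow ⊥ fun j => ?_)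
  rw [bot_sup_eq]
  exact h.reflect j a (by rw [ha]; exact zero_mem _)

/-- Ideals are recovered from their extensions. -/
theorem SameTrunc.mem_of_map (I : Ideal A) {a : A} (ha : φ a ∈ I.map φ) : a ∈ I := by
  refine mem_of_forall_mem_sup_pow I fun j => ?_
  suffices ∀ x ∈ I.map φ, ∃ y ∈ I, x - φ y ∈ IsLocalRing.maximalIdeal R ^ j by
    obtain ⟨y, hy, hxy⟩ := this _ ha
    rw [← map_sub] at hxy
    exact Submodule.mem_sup.mpr ⟨y, hy, a - y, h.reflect j _ hxy, add_sub_cancel _ _⟩
  intro x hx
  induction hx using Submodule.span_induction with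
  | mem x hx =>
    obtain ⟨y, hy, rfl⟩ := hx
    exact ⟨y, hy, by rw [sub_self]; exact zero_mem _⟩
  | zero => exact ⟨0, zero_mem _, by rw [map_zero, sub_zero]; exact zero_mem _⟩
  | add x x' _ _ hx hx' =>
    obtain ⟨y, hy, h1⟩ := hx
    obtain ⟨y', hy', h1'⟩ := hx'
    exact ⟨y + y', add_mem hy hy', by rw [map_add, add_sub_add_comm]; exact add_mem h1 h1'⟩
  | smul r x _ hx =>
    obtain ⟨y, hy, h1⟩ := hx
    obtain ⟨t, ht⟩ := h.approx j r
    refine ⟨t * y, I.mul_mem_left t hy, ?_⟩
    rw [smul_eq_mul, map_mul, show r * x - φ t * φ y = r * (x - φ y) + (r - φ t) * φ y by ring]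
    exact add_mem (Ideal.mul_mem_left _ _ h1) (Ideal.mul_mem_right _ _ ht)

/-- Colon ideals of elements extend to colon ideals. -/
theorem SameTrunc.mem_map_colon {a c : A} {r : R} (hr : φ a ∣ r * φ c) :
    r ∈ (((Ideal.span {a}).colon {c} : Ideal A)).map φ := by
  obtain ⟨s, hs⟩ := hr
  obtain ⟨t, ht⟩ := Ideal.exists_pow_inf_eq_pow_smul (IsLocalRing.maximalIdeal A)
    (Ideal.span ({a, c} : Set A))
  refine mem_of_forall_mem_sup_pow _ fun j => ?_
  obtain ⟨y, hy⟩ := h.approx (j + t) r
  obtain ⟨z, hz⟩ := h.approx (j + t) s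
  have hx : y * c - a * z ∈ IsLocalRing.maximalIdeal A ^ (j + t) := by
    refine h.reflect _ _ ?_
    rw [map_sub, map_mul, map_mul, show φ y * φ c - φ a * φ z =
      φ a * (s - φ z) - (r - φ y) * φ c by linear_combination hs]
    exact sub_mem (Ideal.mul_mem_left _ _ hz) (Ideal.mul_mem_right _ _ hy)
  have hx' : y * c - a * z ∈ IsLocalRing.maximalIdeal A ^ j * Ideal.span {a, c} := by
    have h1 : y * c - a * z ∈ (IsLocalRing.maximalIdeal A ^ (j + t) • ⊤ : Ideal A) ⊓
        Ideal.span {a, c} := by
      refine ⟨by rwa [smul_eq_mul, Ideal.mul_top], sub_mem ?_ ?_⟩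
      · exact Ideal.mul_mem_left _ _ (Ideal.subset_span (by simp))
      · exact Ideal.mul_mem_right _ _ (Ideal.subset_span (by simp))
    rw [ht (j + t) (by omega), show j + t - t = j by omega] at h1
    exact Submodule.smul_mono le_rfl inf_le_right h1
  rw [Ideal.span_insert, Ideal.mul_sup, Submodule.mem_sup] at hx'
  obtain ⟨u, hu, v, hv, huv⟩ := hx'
  rw [Ideal.mem_mul_span_singleton] at hu hv
  obtain ⟨u, -, rfl⟩ := hu
  obtain ⟨v, hv, rfl⟩ := hv
  have hI : y - v ∈ (Ideal.span {a}).colon {c} := by
    rw [Submodule.mem_colon_singleton, smul_eq_mul, Ideal.mem_span_singleton]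
    exact ⟨z + u, by linear_combination -huv⟩
  refine Submodule.mem_sup.mpr ⟨φ (y - v), Ideal.mem_map_of_mem φ hI, r - φ (y - v), ?_,
    add_sub_cancel _ _⟩
  rw [map_sub, sub_sub_eq_add_sub, add_sub_right_comm]
  exact add_mem (Ideal.pow_le_pow_right (by omega) hy) (h.map_pow hv)

variable [IsDomain A] [IsDomain R] [UniqueFactorizationMonoid R]

/-- Colon ideals of elements are principal. -/
theorem SameTrunc.exists_colon_gen {a : A} (ha : a ≠ 0) (c : A) :
    ∃ i : A, ∀ y : A, a ∣ y * c ↔ i ∣ y := by
  obtain ⟨c', a', g, hrel, hgc, hga⟩ := UniqueFactorizationMonoid.exists_reduced_factors' (φ c) (φ a)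
    ((map_ne_zero_iff φ h.injective).mpr ha)
  have hg : g ≠ 0 := fun e => (map_ne_zero_iff φ h.injective).mpr ha (by rw [← hga, e, zero_mul])
  have ha' : a' ≠ 0 := fun e => (map_ne_zero_iff φ h.injective).mpr ha (by rw [← hga, e, mul_zero])
  have hJ : ∀ r : R, φ a ∣ r * φ c ↔ a' ∣ r := fun r => by
    rw [← hga, ← hgc, mul_left_comm, mul_dvd_mul_iff_left hg]
    exact ⟨fun h1 => hrel.symm.dvd_of_dvd_mul_right h1, fun h1 => h1.mul_right _⟩
  set I : Ideal A := (Ideal.span {a}).colon {c}
  have hI : ∀ y, y ∈ I ↔ a ∣ y * c := fun y => by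
    rw [Submodule.mem_colon_singleton, smul_eq_mul, Ideal.mem_span_singleton]
  obtain ⟨i, hi, hiu⟩ : ∃ i ∈ I, ∃ w, IsUnit w ∧ φ i = a' * w := by
    by_contra hne
    have hle : I.map φ ≤ Ideal.span {a'} * IsLocalRing.maximalIdeal R := by
      rw [Ideal.map_le_iff_le_comap]
      intro y hy
      obtain ⟨w, hw⟩ := (hJ (φ y)).mp (by rw [← map_mul]; exact map_dvd φ ((hI y).mp hy))
      rw [Ideal.mem_comap, hw]
      exact Ideal.mul_mem_mul (Ideal.mem_span_singleton_self _)
        ((IsLocalRing.mem_maximalIdeal _).mpr fun hu => hne ⟨y, hy, w, hu, hw⟩)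
    obtain ⟨w, hw, hw'⟩ := Ideal.mem_span_singleton_mul.mp
      (hle (h.mem_map_colon ((hJ a').mpr dvd_rfl)))
    have : w = 1 := mul_left_cancel₀ ha' (hw'.trans (mul_one a').symm)
    exact (IsLocalRing.maximalIdeal.isMaximal R).ne_top
      ((Ideal.eq_top_iff_one _).mpr (this ▸ hw))
  obtain ⟨w, hw, hiw⟩ := hiu
  refine ⟨i, fun y => ⟨fun hy => ?_, fun hy => ?_⟩⟩
  · have h1 : φ i ∣ φ y := by
      rw [hiw, hw.mul_right_dvd]
      exact (hJ _).mp (by rw [← map_mul]; exact map_dvd φ hy)
    rw [← Ideal.mem_span_singleton]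
    refine h.mem_of_map _ ?_
    rw [Ideal.map_span, Set.image_singleton, Ideal.mem_span_singleton]
    exact h1
  · exact ((hI i).mp hi).trans (mul_dvd_mul_right hy c)

theorem SameTrunc.uniqueFactorizationMonoid : UniqueFactorizationMonoid A := by
  haveI : WfDvdMonoid A := IsNoetherianRing.wfDvdMonoid
  refine { irreducible_iff_prime := fun {p} => ⟨fun hp => ⟨hp.ne_zero, hp.not_isUnit,
    fun x y hxy => ?_⟩, Prime.irreducible⟩ }
  obtain ⟨i, hi⟩ := h.exists_colon_gen hp.ne_zero x
  have hy : i ∣ y := (hi y).mp (by rwa [mul_comm] at hxy)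
  obtain ⟨u, hu⟩ := (hi p).mp (dvd_mul_right p x)
  rcases hp.isUnit_or_isUnit hu with hiu | huu
  · exact Or.inl (by simpa using (hi 1).mpr (isUnit_iff_dvd_one.mp hiu))
  · exact Or.inr (by rw [hu, huu.mul_right_dvd]; exact hy)

end Descent

section Smooth

open MvPowerSeries

variable (K : Type u) {B : Type u} [Field K] [IsAlgClosed K] [CommRing B] [Algebra K B]
  [Algebra.Smooth K B]

theorem exists_point (m : Ideal B) [m.IsMaximal] : ∃ c : B →ₐ[K] K, ∀ b, b ∈ m ↔ c b = 0 := by
  letI := Ideal.Quotient.field m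
  haveI : Algebra.FiniteType K (B ⧸ m) :=
    Algebra.FiniteType.of_surjective (Ideal.Quotient.mkₐ K m) Ideal.Quotient.mk_surjective
  haveI : Module.Finite K (B ⧸ m) := finite_of_finite_type_of_isJacobsonRing K (B ⧸ m)
  let e := AlgEquiv.ofBijective (Algebra.ofId K (B ⧸ m))
    IsAlgClosed.algebraMap_bijective_of_isIntegral
  refine ⟨e.symm.toAlgHom.comp (Ideal.Quotient.mkₐ K m), fun b => ?_⟩
  show b ∈ m ↔ e.symm (Ideal.Quotient.mk m b) = 0
  rw [map_eq_zero_iff _ e.symm.injective, Ideal.Quotient.eq_zero_iff_mem]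

variable {K}

theorem exists_parameters (m : Ideal B) [m.IsMaximal] (c : B →ₐ[K] K)
    (hc : ∀ b, b ∈ m ↔ c b = 0) :
    ∃ (d : ℕ) (x : Fin d → B), (∀ i, x i ∈ m) ∧
      (∀ y ∈ m, ∃ a : Fin d → K, y - ∑ i, a i • x i ∈ m ^ 2) ∧
      ∀ a : Fin d → K, ∑ i, a i • x i ∈ m ^ 2 → a = 0 := by
  classical
  haveI : IsNoetherianRing B := Algebra.FiniteType.isNoetherianRing K B
  let P : ℕ → Prop := fun d => ∃ x : Fin d → B, (∀ i, x i ∈ m) ∧
    ∀ y ∈ m, ∃ a : Fin d → K, y - ∑ i, a i • x i ∈ m ^ 2
  have hP : ∃ d, P d := by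
    obtain ⟨d, x, hx⟩ := Submodule.fg_iff_exists_fin_generating_family.mp
      (IsNoetherian.noetherian m)
    have hxm : ∀ i, x i ∈ m := fun i => hx ▸ Submodule.subset_span ⟨i, rfl⟩
    refine ⟨d, x, hxm, fun y hy => ?_⟩
    rw [← hx, Submodule.mem_span_range_iff_exists_fun] at hy
    obtain ⟨b, rfl⟩ := hy
    refine ⟨fun i => c (b i), ?_⟩
    rw [← Finset.sum_sub_distrib, pow_two]
    refine sum_mem fun i _ => ?_
    rw [smul_eq_mul, Algebra.smul_def, ← sub_mul]
    exact Ideal.mul_mem_mul ((hc _).mpr (by rw [map_sub, AlgHom.commutes]; simp)) (hxm i)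
  obtain ⟨x, hxm, hx⟩ := Nat.find_spec hP
  refine ⟨_, x, hxm, hx, fun a ha => ?_⟩
  by_contra hne
  obtain ⟨j, hj⟩ := Function.ne_iff.mp hne
  obtain ⟨e, he⟩ : ∃ e, Nat.find hP = e + 1 :=
    ⟨Nat.find hP - 1, by have := j.pos; omega⟩
  refine Nat.find_min hP (show e < Nat.find hP by omega)
    ⟨fun l => x (Fin.cast he.symm ((Fin.cast he j).succAbove l)), fun l => hxm _, fun y hy => ?_⟩
  obtain ⟨b, hb⟩ := hx y hy
  set v : Fin (Nat.find hP) → K := fun i => b i - b j * (a j)⁻¹ * a i
  refine ⟨fun l => v (Fin.cast he.symm ((Fin.cast he j).succAbove l)), ?_⟩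
  have hsum : ∑ l, v (Fin.cast he.symm ((Fin.cast he j).succAbove l)) •
      x (Fin.cast he.symm ((Fin.cast he j).succAbove l)) = ∑ i, v i • x i := by
    rw [← (finCongr he.symm).sum_comp fun i => v i • x i, Fin.sum_univ_succAbove _ (Fin.cast he j)]
    have h0 : v j = 0 := by simp [v, hj, mul_assoc, inv_mul_cancel₀ hj]
    simp [h0]
  rw [hsum, show y - ∑ i, v i • x i = (y - ∑ i, b i • x i) + (b j * (a j)⁻¹) • ∑ i, a i • x i by
    simp only [v, sub_smul, Finset.sum_sub_distrib, Finset.smul_sum, smul_smul]; ring]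
  exact add_mem hb (by rw [Algebra.smul_def]; exact Ideal.mul_mem_left _ _ ha)

theorem isAdicComplete_sq {R : Type*} [CommRing R] (M : Ideal R) [IsAdicComplete M R] :
    IsAdicComplete (M ^ 2) R where
  haus' x hx := IsHausdorff.haus (inferInstance : IsHausdorff M R) x fun n => by
    have h1 := hx n
    rw [SModEq.sub_mem, smul_eq_mul, Ideal.mul_top] at h1 ⊢
    rw [← pow_mul] at h1
    exact Ideal.pow_le_pow_right (by omega) h1
  prec' f hf := by
    obtain ⟨L, hL⟩ := IsPrecomplete.prec (inferInstance : IsPrecomplete M R) (f := f) fun {i j} hij => by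
      have h1 := hf hij
      rw [SModEq.sub_mem, smul_eq_mul, Ideal.mul_top] at h1 ⊢
      rw [← pow_mul] at h1
      exact Ideal.pow_le_pow_right (by omega) h1
    refine ⟨L, fun n => ?_⟩
    have h1 := hf (show n ≤ 2 * n by omega)
    have h2 := hL (2 * n)
    rw [SModEq.sub_mem, smul_eq_mul, Ideal.mul_top] at h1 h2 ⊢
    rw [← pow_mul] at h1 ⊢
    have := add_mem h1 h2
    rwa [sub_add_sub_cancel] at this

theorem coeff_eq_zero_of_mem_pow {σ : Type*} {M : Ideal (MvPowerSeries σ K)}
    (hM : ∀ v ∈ M, constantCoeff v = 0) :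
    ∀ (n : ℕ) (r : MvPowerSeries σ K), r ∈ M ^ n → ∀ e : σ →₀ ℕ, e.degree < n → coeff e r = 0 := by
  classical
  intro n
  induction n with
  | zero => intro r _ e he; omega
  | succ n ih =>
    intro r hr
    rw [pow_succ] at hr
    induction hr using Submodule.mul_induction_on' with
    | mem_mul_mem u hu v hv =>
      intro e he
      rw [coeff_mul]
      refine Finset.sum_eq_zero fun p hp => ?_
      have hpe : p.1 + p.2 = e := Finset.HasAntidiagonal.mem_antidiagonal.mp hp
      by_cases h1 : p.1.degree < n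
      · rw [ih u hu _ h1, zero_mul]
      · have h2 : p.2.degree = 0 := by
          have := congrArg Finsupp.degree hpe
          rw [map_add] at this
          omega
        rw [(Finsupp.degree_eq_zero_iff _).mp h2, coeff_zero_eq_constantCoeff_apply, hM v hv,
          mul_zero]
    | add x _ y _ hx hy => intro e he; rw [map_add, hx e he, hy e he, add_zero]

set_option maxHeartbeats 1000000 in
/-- At a closed point a smooth algebra has the truncations of power series. -/
theorem exists_embedding (m : Ideal B) [m.IsMaximal] : ∃ (d : ℕ)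
    (g : B →+* MvPowerSeries (Fin d) K), (∀ b, b ∈ m ↔ ¬ IsUnit (g b)) ∧
      (∀ j b, g b ∈ IsLocalRing.maximalIdeal _ ^ j → b ∈ m ^ j) ∧
      ∀ j r, ∃ b, r - g b ∈ IsLocalRing.maximalIdeal _ ^ j := by
  classical
  obtain ⟨c, hc⟩ := exists_point K m
  obtain ⟨d, x, hxm, hspan, hind⟩ := exists_parameters m c hc
  set R := MvPowerSeries (Fin d) K
  set M : Ideal R := IsLocalRing.maximalIdeal R with hMdef
  have hM : ∀ v, v ∈ M ↔ constantCoeff v = 0 := fun v => by
    rw [hMdef, maximalIdeal_mvPowerSeries, mem_span_X_iff]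
  haveI : IsAdicComplete M R := isAdicComplete_maximalIdeal
  haveI := isAdicComplete_sq M
  have hsub : ∀ b : B, b - algebraMap K B (c b) ∈ m := fun b =>
    (hc _).mpr (by rw [map_sub, AlgHom.commutes]; simp)
  choose a ha using fun b : B => hspan _ (hsub b)
  have huniq : ∀ b v, b - algebraMap K B (c b) - ∑ i, v i • x i ∈ m ^ 2 → a b = v := fun b v hv =>
    sub_eq_zero.mp (hind _ (by
      have := sub_mem hv (ha b)
      rw [sub_sub_sub_cancel_left, ← Finset.sum_sub_distrib] at this
      simpa only [Pi.sub_apply, sub_smul] using this))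
  let lin : B → R := fun b => algebraMap K R (c b) + ∑ i, algebraMap K R (a b i) * X i
  have hXM : ∀ i, (X i : R) ∈ M := fun i => (hM _).mpr (constantCoeff_X i)
  have hsumM : ∀ v : Fin d → K, (∑ i, algebraMap K R (v i) * X i) ∈ M := fun v =>
    sum_mem fun i _ => Ideal.mul_mem_left _ _ (hXM i)
  have hadd : ∀ b b', a (b + b') = a b + a b' := fun b b' => huniq _ _ (by
    have := add_mem (ha b) (ha b')
    convert this using 1
    simp only [map_add, Pi.add_apply, add_smul, Finset.sum_add_distrib]
    ring)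
  have hconst : ∀ r : K, a (algebraMap K B r) = 0 := fun r => huniq _ _ (by simp)
  have hmul : ∀ b b', a (b * b') = fun i => c b * a b' i + c b' * a b i := fun b b' =>
    huniq _ _ (by
      have h1 : (b - algebraMap K B (c b)) * (b' - algebraMap K B (c b')) ∈ m ^ 2 := by
        rw [pow_two]; exact Ideal.mul_mem_mul (hsub b) (hsub b')
      have := add_mem (add_mem h1 (Ideal.mul_mem_left _ (algebraMap K B (c b)) (ha b')))
        (Ideal.mul_mem_left _ (algebraMap K B (c b')) (ha b))
      convert this using 1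
      simp only [Algebra.smul_def, map_add, map_mul, add_mul, Finset.sum_add_distrib, mul_assoc,
        ← Finset.mul_sum]
      ring)
  let f : B →ₐ[K] R ⧸ M ^ 2 :=
    { toFun := fun b => Ideal.Quotient.mk _ (lin b)
      map_one' := by
        simp only [lin, ← map_one (algebraMap K B), hconst]
        simp
      map_mul' := fun b b' => by
        rw [← map_mul, Ideal.Quotient.mk_eq_mk_iff_sub_mem]
        have e : lin (b * b') - lin b * lin b' =
            -((∑ i, algebraMap K R (a b i) * X i) * ∑ i, algebraMap K R (a b' i) * X i) := by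
          simp only [lin, hmul, map_add, map_mul, add_mul (algebraMap K R (c b) * _),
            Finset.sum_add_distrib, mul_assoc, ← Finset.mul_sum]
          ring
        rw [e, pow_two]
        exact neg_mem (Ideal.mul_mem_mul (hsumM _) (hsumM _))
      map_zero' := by
        simp only [lin, ← map_zero (algebraMap K B), hconst]
        simp
      map_add' := fun b b' => by
        rw [← map_add]
        refine congrArg _ ?_
        simp only [lin, hadd, map_add, Pi.add_apply, add_mul, Finset.sum_add_distrib]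
        ring
      commutes' := fun r => by
        simp only [lin, hconst]
        simp [← Ideal.Quotient.mk_algebraMap] }
  obtain ⟨g, hg⟩ := Algebra.FormallySmooth.exists_mkₐ_comp_eq_of_isAdicComplete f
  have hgl : ∀ b, g b - lin b ∈ M ^ 2 := fun b =>
    Ideal.Quotient.mk_eq_mk_iff_sub_mem _ _ |>.mp (congr($hg b))
  have hsqM : M ^ 2 ≤ M := Ideal.pow_le_self two_ne_zero
  have hgc : ∀ b, constantCoeff (g b) = c b := fun b => by
    have h1 := (hM _).mp (hsqM (hgl b))
    have h2 := (hM _).mp (hsumM (a b))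
    rw [map_sub, sub_eq_zero] at h1
    rw [h1]
    simp only [lin, map_add, h2, add_zero]
    rfl
  have hgm : ∀ b, b ∈ m → g b ∈ M := fun b hb => (hM _).mpr (by rw [hgc, (hc b).mp hb])
  have hgpow : ∀ j b, b ∈ m ^ j → g b ∈ M ^ j := fun j b hb => by
    have h2 := Ideal.mem_map_of_mem (g : B →+* R) hb
    rw [Ideal.map_pow] at h2
    exact Ideal.pow_right_mono (Ideal.map_le_iff_le_comap.mpr hgm) j h2
  have hgx : ∀ i, g (x i) - X i ∈ M ^ 2 := fun i => by
    have e : a (x i) = Pi.single i 1 := huniq _ _ (by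
      simp [(hc _).mp (hxm i), Pi.single_apply, ite_smul])
    have := hgl (x i)
    simpa [lin, e, (hc _).mp (hxm i), Pi.single_apply, ite_mul] using this
  have hgraded : ∀ j, ∀ b ∈ m ^ j, ∃ P : MvPolynomial (Fin d) K, P.IsHomogeneous j ∧
      b - MvPolynomial.aeval x P ∈ m ^ (j + 1) ∧ g b - (P : R) ∈ M ^ (j + 1) := by
    intro j
    induction j with
    | zero =>
      intro b _
      refine ⟨MvPolynomial.C (c b), MvPolynomial.isHomogeneous_C _ _, ?_, ?_⟩
      · simpa using hsub b
      · rw [pow_one, hM, map_sub, hgc, MvPolynomial.coe_C, constantCoeff_C, sub_self]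
    | succ j ih =>
      intro b hb
      rw [pow_succ] at hb
      induction hb using Submodule.mul_induction_on' with
      | mem_mul_mem u hu y hy =>
        obtain ⟨P, hP, hP1, hP2⟩ := ih u hu
        obtain ⟨v, hv⟩ := hspan y hy
        refine ⟨P * ∑ i, MvPolynomial.C (v i) * MvPolynomial.X i,
          hP.mul (MvPolynomial.IsHomogeneous.sum _ _ _ fun i _ => by
            simpa using (MvPolynomial.isHomogeneous_C (Fin d) (v i)).mul
              (MvPolynomial.isHomogeneous_X K i)), ?_, ?_⟩
        · have hu' : MvPolynomial.aeval x P ∈ m ^ j := by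
            have := sub_mem hu (Ideal.pow_le_pow_right (Nat.le_succ j) hP1)
            rwa [sub_sub_cancel] at this
          have e : u * y - MvPolynomial.aeval x
              (P * ∑ i, MvPolynomial.C (v i) * MvPolynomial.X i) =
              (u - MvPolynomial.aeval x P) * y +
                MvPolynomial.aeval x P * (y - ∑ i, v i • x i) := by
            simp only [map_mul, map_sum, MvPolynomial.aeval_C, MvPolynomial.aeval_X,
              Algebra.smul_def]
            ring
          rw [e]
          refine add_mem ?_ ?_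
          · rw [pow_succ]; exact Ideal.mul_mem_mul hP1 hy
          · rw [show j + 1 + 1 = j + 2 from rfl, pow_add]; exact Ideal.mul_mem_mul hu' hv
        · have hu' : (P : R) ∈ M ^ j := by
            have := sub_mem (hgpow j u hu) (Ideal.pow_le_pow_right (Nat.le_succ j) hP2)
            rwa [sub_sub_cancel] at this
          have hy' : g y - ∑ i, algebraMap K R (v i) * X i ∈ M ^ 2 := by
            have h1 := hgpow 2 _ hv
            have h2 : (∑ i, algebraMap K R (v i) * (g (x i) - X i)) ∈ M ^ 2 :=
              sum_mem fun i _ => Ideal.mul_mem_left _ _ (hgx i)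
            have := add_mem h1 h2
            rwa [map_sub, map_sum, ← Finset.sum_congr rfl fun i _ =>
              show algebraMap K R (v i) * g (x i) = g (v i • x i) by
                rw [map_smul, Algebra.smul_def],
              Finset.sum_congr rfl fun i _ => mul_sub (algebraMap K R (v i)) (g (x i)) (X i),
              Finset.sum_sub_distrib, sub_add_sub_cancel] at this
          have e : g (u * y) - ((P * ∑ i, MvPolynomial.C (v i) * MvPolynomial.X i :
              MvPolynomial (Fin d) K) : R) =
              (g u - (P : R)) * g y + (P : R) * (g y - ∑ i, algebraMap K R (v i) * X i) := by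
            rw [map_mul, MvPolynomial.coe_mul, ← MvPolynomial.coeToMvPowerSeries.ringHom_apply,
              ← MvPolynomial.coeToMvPowerSeries.ringHom_apply, map_sum]
            simp only [map_mul, MvPolynomial.coeToMvPowerSeries.ringHom_apply,
              MvPolynomial.coe_C, MvPolynomial.coe_X]
            rw [show (algebraMap K R : K → R) = C from rfl]
            ring
          rw [e]
          refine add_mem ?_ ?_
          · rw [pow_succ]; exact Ideal.mul_mem_mul hP2 (hgm y hy)
          · rw [show j + 1 + 1 = j + 2 from rfl, pow_add]; exact Ideal.mul_mem_mul hu' hy'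
      | add u _ v _ hu hv =>
        obtain ⟨P, hP, hP1, hP2⟩ := hu
        obtain ⟨Q, hQ, hQ1, hQ2⟩ := hv
        refine ⟨P + Q, hP.add hQ, ?_, ?_⟩
        · rw [map_add, add_sub_add_comm]; exact add_mem hP1 hQ1
        · rw [map_add, MvPolynomial.coe_add, add_sub_add_comm]; exact add_mem hP2 hQ2
  have happrox : ∀ j, ∀ r ∈ M ^ j, ∃ y ∈ m ^ j, r - g y ∈ M ^ (j + 1) := by
    intro j
    induction j with
    | zero =>
      intro r _
      refine ⟨algebraMap K B (constantCoeff r), by simp, ?_⟩
      rw [pow_one, hM, map_sub, hgc, AlgHom.commutes]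
      simp
    | succ j ih =>
      intro r hr
      rw [pow_succ] at hr
      induction hr using Submodule.mul_induction_on' with
      | mem_mul_mem u hu w hw =>
        obtain ⟨y, hy, hy'⟩ := ih u hu
        have hw1 : ∃ z ∈ m, w - g z ∈ M ^ 2 := by
          rw [hMdef, maximalIdeal_mvPowerSeries] at hw
          induction hw using Submodule.span_induction with
          | mem w hw =>
            obtain ⟨i, rfl⟩ := hw
            exact ⟨x i, hxm i, by rw [← neg_sub]; exact neg_mem (hgx i)⟩
          | zero => exact ⟨0, zero_mem _, by rw [map_zero, sub_zero]; exact zero_mem _⟩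
          | add p q _ _ hp hq =>
            obtain ⟨z, hz, hz'⟩ := hp
            obtain ⟨z₂, hz₂, hz₂'⟩ := hq
            exact ⟨z + z₂, add_mem hz hz₂, by rw [map_add, add_sub_add_comm]; exact add_mem hz' hz₂'⟩
          | smul t p hpM hp =>
            obtain ⟨z, hz, hz'⟩ := hp
            refine ⟨algebraMap K B (constantCoeff t) * z, Ideal.mul_mem_left _ _ hz, ?_⟩
            replace hpM : p ∈ M := by rw [hMdef, maximalIdeal_mvPowerSeries]; exact hpM
            rw [smul_eq_mul, map_mul, AlgHom.commutes, show t * p -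
              algebraMap K R (constantCoeff t) * g z = (t - algebraMap K R (constantCoeff t)) * p +
                algebraMap K R (constantCoeff t) * (p - g z) by ring]
            refine add_mem ?_ (Ideal.mul_mem_left _ _ hz')
            rw [pow_two]
            exact Ideal.mul_mem_mul ((hM _).mpr (by
              rw [map_sub, show algebraMap K R (constantCoeff t) = C (constantCoeff t) from rfl,
                constantCoeff_C, sub_self])) hpM
        obtain ⟨z, hz, hz'⟩ := hw1
        refine ⟨y * z, by rw [pow_succ]; exact Ideal.mul_mem_mul hy hz, ?_⟩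
        rw [map_mul, show u * w - g y * g z = (u - g y) * w + g y * (w - g z) by ring]
        refine add_mem ?_ ?_
        · rw [pow_succ]; exact Ideal.mul_mem_mul hy' hw
        · rw [show j + 1 + 1 = j + 2 from rfl, pow_add]; exact Ideal.mul_mem_mul (hgpow j y hy) hz'
      | add u _ v _ hu hv =>
        obtain ⟨y, hy, hy'⟩ := hu
        obtain ⟨z, hz, hz'⟩ := hv
        exact ⟨y + z, add_mem hy hz, by rw [map_add, add_sub_add_comm]; exact add_mem hy' hz'⟩
  refine ⟨d, g.toRingHom, fun b => ?_, fun j => ?_, fun j r => ?_⟩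
  · show b ∈ m ↔ ¬ IsUnit (g b)
    rw [hc, isUnit_iff_constantCoeff, hgc, isUnit_iff_ne_zero, not_not]
  · induction j with
    | zero => intro b _; simp
    | succ j ih =>
      intro b hb
      obtain ⟨P, hP, hP1, hP2⟩ := hgraded j b (ih b (Ideal.pow_le_pow_right (Nat.le_succ j) hb))
      have h0 : P = 0 := MvPolynomial.ext _ _ fun e => by
        rw [MvPolynomial.coeff_zero]
        by_cases he : e.degree = j
        · have := coeff_eq_zero_of_mem_pow (fun v hv => (hM v).mp hv) (j + 1) _
            (sub_mem hb hP2) e (by omega)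
          simpa using this
        · exact hP.coeff_eq_zero he
      rwa [h0, map_zero, sub_zero] at hP1
  · induction j with
    | zero => exact ⟨0, by simp⟩
    | succ j ih =>
      obtain ⟨b, hb⟩ := ih
      obtain ⟨y, -, hy⟩ := happrox j _ hb
      exact ⟨b + y, by rw [map_add, ← sub_sub]; exact hy⟩

end Smooth

end Fermat.Agent.AbVar
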